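import Fermat.Agent.SelbergDensity.MeanSquare
import Fermat.Agent.Levinson.DerivZeta
import Fermat.Agent.BohrLandau.Zeros

/-!
# The total distance of the zeros from the line is `O (T)`

Littlewood's lemma for `ζ ψ` gives `∑ (β - 1/2)⁺ = O (T)` over `T < γ ≤ 2T`; the functional equation
doubles it to `∑ |β - 1/2|`, and the dyadic blocks add up to `O (T)` (Selberg).
-/

set_option autoImplicit false

noncomputable section

namespace FA.SelbergDensity

open Complex Filter MeasureTheory Set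
open FA.LevinsonThird (levR levLine littlewood_rect abs_arg_edge_le)
open FA.RiemannMangoldt (zeroCount zetaZeros finite_zetaZeros exists_count mainTerm mainTerm_near)
open FA.BohrLandau (zetaMult zetaMult_one_sub offLineCount rightCount)
open scoped Real Topology ComplexConjugate

/-- `∑ |β - 1/2|` over the zeros with `0 < im ≤ T`. -/
def zeroExcess (T : ℝ) : ℝ :=
  ∑ ρ ∈ (finite_zetaZeros T).toFinset, (zetaMult ρ : ℝ) * |ρ.re - 1 / 2|

/-- The zeros with `T < im ≤ 2T`. -/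
def dyadicZeros (T : ℝ) : Finset ℂ :=
  (finite_zetaZeros (2 * T)).toFinset.filter fun ρ => T < ρ.im

theorem mem_dyadicZeros {T : ℝ} {ρ : ℂ} : ρ ∈ dyadicZeros T ↔
    (riemannZeta ρ = 0 ∧ 0 < ρ.re ∧ ρ.re < 1 ∧ 0 < ρ.im ∧ ρ.im ≤ 2 * T) ∧ T < ρ.im := by
  rw [dyadicZeros, Finset.mem_filter, Set.Finite.mem_toFinset]
  rfl

/-- The mirror image in the line. -/
theorem mirror_zero {T : ℝ} {ρ : ℂ} (h : ρ ∈ dyadicZeros T) :
    1 - conj ρ ∈ dyadicZeros T ∧ zetaMult (1 - conj ρ) = zetaMult ρ := by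
  obtain ⟨⟨h0, h1, h2, h3, h4⟩, h5⟩ := mem_dyadicZeros.1 h
  have hne : ρ ≠ 1 := fun e => by rw [e, one_re] at h2; exact lt_irrefl _ h2
  have hc : zetaMult (conj ρ) = zetaMult ρ :=
    FA.Levinson.analyticOrderNatAt_conj riemannZeta_conj (FA.Levinson.analyticAt_zeta hne)
  refine ⟨mem_dyadicZeros.2 ⟨⟨?_, by simp; linarith, by simp; linarith, by simpa using h3,
    by simpa using h4⟩, by simpa using h5⟩, ?_⟩
  · rw [riemannZeta_one_sub (fun n e => ?_) fun e => ?_, riemannZeta_conj, h0, map_zero, mul_zero]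
    · have := congrArg Complex.im e
      simp at this
      linarith
    · have := congrArg Complex.im e
      simp at this
      linarith
  · rw [zetaMult_one_sub (by simpa using h1) (by simpa using h2), hc]

theorem sum_abs_dyadic (T : ℝ) :
    ∑ ρ ∈ dyadicZeros T, (zetaMult ρ : ℝ) * |ρ.re - 1 / 2| =
      2 * ∑ ρ ∈ dyadicZeros T, (zetaMult ρ : ℝ) * max (ρ.re - 1 / 2) 0 := by
  have hsym : ∑ ρ ∈ dyadicZeros T, (zetaMult ρ : ℝ) * max (1 / 2 - ρ.re) 0 =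
      ∑ ρ ∈ dyadicZeros T, (zetaMult ρ : ℝ) * max (ρ.re - 1 / 2) 0 :=
    Finset.sum_nbij' (fun ρ => 1 - conj ρ) (fun ρ => 1 - conj ρ)
      (fun ρ hρ => (mirror_zero hρ).1) (fun ρ hρ => (mirror_zero hρ).1)
      (fun ρ _ => by simp) (fun ρ _ => by simp) fun ρ hρ => by
        rw [(mirror_zero hρ).2]
        simp only [sub_re, one_re, conj_re]
        congr 2
        ring
  rw [two_mul]
  nth_rewrite 2 [← hsym]
  rw [← Finset.sum_add_distrib]
  refine Finset.sum_congr rfl fun ρ _ => ?_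
  rw [← mul_add]
  congr 1
  rcases le_total 0 (ρ.re - 1 / 2) with h | h
  · rw [abs_of_nonneg h, max_eq_left h, max_eq_right (by linarith), add_zero]
  · rw [abs_of_nonpos h, max_eq_right h, max_eq_left (by linarith)]
    ring

/-- **Few zeros in a unit interval.** -/
theorem exists_short_count : ∃ C, 0 ≤ C ∧ ∀ᶠ T : ℝ in atTop, ∀ S ∈ Icc T (2 * T),
    (zeroCount (S + 1) : ℝ) ≤ zeroCount S + C * T := by
  obtain ⟨C, hC, hN⟩ := exists_count
  refine ⟨6 * C + 12, by positivity, ?_⟩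
  filter_upwards [eventually_ge_atTop (101 : ℝ)] with T hT S hS
  have hell : ∀ x ∈ Icc T (2 * T + 1), FA.ZeroFree.ell x ≤ 3 * T := fun x hx => by
    have h : FA.ZeroFree.ell x ≤ |x| + 100 := Real.log_le_self (by positivity)
    rw [abs_of_nonneg (by linarith [hx.1])] at h
    linarith [hx.2]
  have h1 := (abs_le.1 (hN (S + 1) (by linarith [hS.1]))).2
  have h2 := (abs_le.1 (hN S (by linarith [hS.1]))).1
  have h3 := (abs_le.1 (mainTerm_near (S := S) (T := S + 1) (by linarith [hS.1]) (by linarith)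
    le_rfl)).2
  have e1 := hell (S + 1) ⟨by linarith [hS.1], by linarith [hS.2]⟩
  have e2 := hell S ⟨hS.1, by linarith [hS.2]⟩
  have a1 := mul_le_mul_of_nonneg_left e1 hC
  have a2 := mul_le_mul_of_nonneg_left e2 hC
  linarith

theorem window_count_le {S T C : ℝ} (hS : 0 ≤ S) (F : Finset ℂ)
    (hF : ∀ ρ ∈ F, riemannZeta ρ = 0 ∧ 0 < ρ.re ∧ ρ.re < 1 ∧ S < ρ.im ∧ ρ.im ≤ S + 1)
    (h : (zeroCount (S + 1) : ℝ) ≤ zeroCount S + C * T) :
    ((∑ ρ ∈ F, zetaMult ρ : ℕ) : ℝ) ≤ C * T := by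
  classical
  obtain ⟨G, hG⟩ : ∃ G, G = (finite_zetaZeros S).toFinset := ⟨_, rfl⟩
  have hdis : Disjoint G F := Finset.disjoint_left.2 fun ρ h1 h2 => by
    rw [hG, Set.Finite.mem_toFinset] at h1
    linarith [h1.2.2.2.2, (hF ρ h2).2.2.2.1]
  have hle : zeroCount S + ∑ ρ ∈ F, zetaMult ρ ≤ zeroCount (S + 1) := by
    rw [zeroCount, ← hG]
    simp only [zetaMult]
    rw [← Finset.sum_union hdis]
    refine Finset.sum_le_sum_of_subset fun ρ hρ => ?_
    rw [Set.Finite.mem_toFinset]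
    rcases Finset.mem_union.1 hρ with h1 | h1
    · rw [hG, Set.Finite.mem_toFinset] at h1
      obtain ⟨a, b, c, d, e⟩ := h1
      exact ⟨a, b, c, d, e.trans (by linarith)⟩
    · obtain ⟨a, b, c, d, e⟩ := hF ρ h1
      exact ⟨a, b, c, hS.trans_lt d, e⟩
  have := (Nat.cast_le (α := ℝ)).2 hle
  rw [Nat.cast_add] at this
  linarith

/-- A clean abscissa just left of the mollified line. -/
theorem exists_abscissa {T : ℝ} (hT : 1 ≤ T) (h9 : 9 / 20 < levLine T) (h2 : levLine T ≤ 1 / 2)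
    {S : Set ℝ} (hS : S.Finite) :
    ∃ σ ∈ Ioo (9 / 20 : ℝ) (levLine T), σ ∉ S ∧
      (∫ t in T..2 * T, ‖zetaMoll T ((σ : ℂ) + t * I)‖ ^ 2) ≤
        (∫ t in T..2 * T, ‖zetaMoll T ((levLine T : ℂ) + t * I)‖ ^ 2) + T := by
  obtain ⟨K, hK⟩ : ∃ K : Set ℂ, K = Icc (9 / 20 : ℝ) (1 / 2) ×ℂ Icc T (2 * T) := ⟨_, rfl⟩
  obtain ⟨g, hg⟩ : ∃ g : ℂ → ℝ, g = fun s => ‖zetaMoll T s‖ ^ 2 := ⟨_, rfl⟩
  have hgc : ContinuousOn g K := by
    rw [hg, hK]
    exact (((differentiableOn_zetaMoll T).continuousOn.mono fun s hs =>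
      lt_of_lt_of_le (show (0 : ℝ) < T by linarith) (mem_reProdIm.1 hs).2.1).norm).pow 2
  obtain ⟨δ, hδ, hu⟩ := Metric.uniformContinuousOn_iff.1
    ((hK ▸ isCompact_Icc.reProdIm isCompact_Icc : IsCompact K).uniformContinuousOn_of_continuous
      hgc) 1 one_pos
  obtain ⟨σ, ⟨hσa, hσb⟩, hσS⟩ := ((Set.Ioo_infinite
    (show max (levLine T - δ) (9 / 20) < levLine T from max_lt (by linarith) h9)).sdiff hS).nonempty
  rw [max_lt_iff] at hσa
  refine ⟨σ, ⟨hσa.2, hσb⟩, hσS, ?_⟩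
  have hT2 : T ≤ 2 * T := by linarith
  have hmem : ∀ x ∈ Icc (9 / 20 : ℝ) (1 / 2), ∀ t ∈ uIcc T (2 * T), (x : ℂ) + t * I ∈ K :=
    fun x hx t ht => by
      rw [uIcc_of_le hT2] at ht
      rw [hK, mem_reProdIm]
      simp only [add_re, add_im, mul_re, mul_im, ofReal_re, ofReal_im, I_re, I_im, mul_zero,
        mul_one, sub_zero, add_zero, zero_add]
      exact ⟨hx, ht⟩
  have hint : ∀ x ∈ Icc (9 / 20 : ℝ) (1 / 2),
      IntervalIntegrable (fun t : ℝ => g ((x : ℂ) + t * I)) volume T (2 * T) := fun x hx =>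
    (hgc.comp (f := fun t : ℝ => (x : ℂ) + t * I) (by fun_prop)
      fun t ht => hmem x hx t ht).intervalIntegrable
  have h0 : levLine T ∈ Icc (9 / 20 : ℝ) (1 / 2) := ⟨h9.le, h2⟩
  have hσI : σ ∈ Icc (9 / 20 : ℝ) (1 / 2) := ⟨hσa.2.le, hσb.le.trans h2⟩
  have h := intervalIntegral.integral_mono_on hT2 (hint σ hσI)
    ((hint _ h0).add (intervalIntegrable_const (c := (1 : ℝ)))) fun t ht => by
      have hd' : dist ((σ : ℂ) + t * I) ((levLine T : ℂ) + t * I) < δ := by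
        rw [dist_eq_norm, add_sub_add_right_eq_sub, ← ofReal_sub, Complex.norm_real,
          Real.norm_eq_abs, abs_sub_comm, abs_of_nonneg (by linarith)]
        linarith [hσa.1]
      rw [← uIcc_of_le hT2] at ht
      have h := hu _ (hmem σ hσI t ht) _ (hmem _ h0 t ht) hd'
      rw [Real.dist_eq] at h
      linarith [(abs_lt.1 h).2]
  rw [intervalIntegral.integral_add (hint _ h0) intervalIntegrable_const,
    intervalIntegral.integral_const, smul_eq_mul, mul_one] at h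
  simp only [hg] at h
  linarith

/-- The left edge: `log |F| ≤ |F|² / 2`. -/
theorem integral_log_le_sq {T σ a b : ℝ} (hT : 0 < T) (ha : T ≤ a) (hab : a ≤ b)
    (hb : b ≤ 2 * T) (hne : ∀ t ∈ Icc a b, zetaMoll T ((σ : ℂ) + t * I) ≠ 0) :
    ∫ t in a..b, Real.log ‖zetaMoll T ((σ : ℂ) + t * I)‖ ≤
      (∫ t in T..2 * T, ‖zetaMoll T ((σ : ℂ) + t * I)‖ ^ 2) / 2 := by
  obtain ⟨F, hF⟩ : ∃ F : ℝ → ℂ, F = fun t : ℝ => zetaMoll T ((σ : ℂ) + t * I) := ⟨_, rfl⟩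
  have hFc : ContinuousOn F (uIcc T (2 * T)) := by
    rw [hF]
    refine (differentiableOn_zetaMoll T).continuousOn.comp (by fun_prop) fun t ht => ?_
    rw [uIcc_of_le (by linarith)] at ht
    rw [upperPlane, Set.mem_ofPred_eq]
    simp
    linarith [ht.1]
  have hne' : ∀ t ∈ Icc a b, F t ≠ 0 := fun t ht => hF ▸ hne t ht
  show (∫ t in a..b, (fun x => Real.log ‖x‖) (zetaMoll T ((σ : ℂ) + t * I))) ≤
    (∫ t in T..2 * T, (fun x => ‖x‖ ^ 2) (zetaMoll T ((σ : ℂ) + t * I))) / 2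
  simp only [show ∀ t : ℝ, zetaMoll T ((σ : ℂ) + t * I) = F t from fun t => by rw [hF]]
  have hsub : uIcc a b ⊆ uIcc T (2 * T) := by
    rw [uIcc_of_le hab, uIcc_of_le (by linarith)]
    exact Icc_subset_Icc ha hb
  have hsq : IntervalIntegrable (fun t => ‖F t‖ ^ 2) volume T (2 * T) :=
    (hFc.norm.pow 2).intervalIntegrable
  have hsq' : IntervalIntegrable (fun t => ‖F t‖ ^ 2) volume a b :=
    ((hFc.mono hsub).norm.pow 2).intervalIntegrable
  have hlog : IntervalIntegrable (fun t => Real.log ‖F t‖) volume a b :=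
    ((hFc.mono hsub).norm.log fun t ht => norm_ne_zero_iff.2
      (hne' t (by rwa [uIcc_of_le hab] at ht))).intervalIntegrable
  refine (intervalIntegral.integral_mono_on hab hlog (hsq'.const_mul (1 / 2)) fun t ht => ?_).trans
    ?_
  · have hx : 0 < ‖F t‖ ^ 2 := by
      have := norm_pos_iff.2 (hne' t ht)
      positivity
    have h2 := Real.log_le_sub_one_of_pos hx
    rw [Real.log_pow, Nat.cast_ofNat] at h2
    linarith
  · rw [intervalIntegral.integral_const_mul, one_div_mul_eq_div]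
    exact div_le_div_of_nonneg_right (intervalIntegral.integral_mono_interval ha hab hb
      (Eventually.of_forall fun t => by positivity) hsq) two_pos.le

/-- **Littlewood's lemma for `ζ ψ`.** -/
theorem exists_rect : ∃ C, 0 ≤ C ∧ ∀ᶠ T : ℝ in atTop, ∃ y₁ y₂ : ℝ,
    (T < y₁ ∧ y₁ < T + 1) ∧ (2 * T - 1 < y₂ ∧ y₂ < 2 * T) ∧
      ∀ F : Finset ℂ, (∀ ρ ∈ F, riemannZeta ρ = 0 ∧ 1 / 2 ≤ ρ.re ∧ ρ.re < 1 ∧
        y₁ < ρ.im ∧ ρ.im < y₂) →
        ∑ ρ ∈ F, (zetaMult ρ : ℝ) * (ρ.re - 1 / 2) ≤ C * T := by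
  classical
  obtain ⟨Q, hQ, hms⟩ := exists_zetaMoll_meanSquare
  obtain ⟨C₁, hC₁, hone⟩ := eventually_zetaMoll_near_one
  obtain ⟨K, hK, hhor⟩ := exists_zetaMoll_horizontal
  have hR : levR = 13 / 10 := rfl
  refine ⟨Q + 2 * C₁ + 4 * π + 2 * K + 1, by positivity, ?_⟩
  filter_upwards [hms, hone, hhor, eventually_order_zetaMoll, eventually_ge_atTop (10 : ℝ),
    Real.tendsto_log_atTop.eventually_ge_atTop (2 * C₁ + 100)] with T hms hone hhor htop hT hL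
  obtain ⟨L, hLd⟩ : ∃ L, L = Real.log T := ⟨_, rfl⟩
  rw [← hLd] at hone hhor hL
  have hL0 : 0 < L := by linarith
  have hLT : L ≤ T := hLd ▸ Real.log_le_self (by linarith)
  have hline : 9 / 20 < levLine T ∧ levLine T < 1 / 2 := by
    have h : levR / L < 1 / 20 := by rw [hR, div_lt_iff₀ hL0]; linarith
    have h' : 0 < levR / L := div_pos (by rw [hR]; norm_num) hL0
    rw [levLine, ← hLd]
    constructor <;> linarith
  obtain ⟨K₀, hK₀⟩ : ∃ K₀ : Set ℂ, K₀ = Icc (2 / 5 : ℝ) 2 ×ℂ Icc T (2 * T) := ⟨_, rfl⟩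
  have hK₀s : K₀ ⊆ upperPlane := fun s hs => by
    rw [hK₀, mem_reProdIm] at hs
    exact lt_of_lt_of_le (show (0 : ℝ) < T by linarith) hs.2.1
  have hfin : {z | z ∈ K₀ ∧ zetaMoll T z = 0}.Finite :=
    FA.Levinson.finite_zeros_compact isOpen_upperPlane
      (hK₀ ▸ isCompact_Icc.reProdIm isCompact_Icc) hK₀s (differentiableOn_zetaMoll T)
      fun z hz => htop z (hK₀s hz)
  obtain ⟨σ, ⟨hσa, hσb⟩, hσS, hσI⟩ :=
    exists_abscissa (show 1 ≤ T by linarith) hline.1 hline.2.le (hfin.image Complex.re)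
  obtain ⟨y₁, ⟨hy1, hy1'⟩, hy1S⟩ := ((Set.Ioo_infinite (show T < T + 1 by linarith)).sdiff
    (hfin.image Complex.im)).nonempty
  obtain ⟨y₂, ⟨hy2', hy2⟩, hy2S⟩ := ((Set.Ioo_infinite
    (show 2 * T - 1 < 2 * T by linarith)).sdiff (hfin.image Complex.im)).nonempty
  refine ⟨y₁, y₂, ⟨hy1, hy1'⟩, ⟨hy2', hy2⟩, fun F hF => ?_⟩
  have hy : y₁ < y₂ := by linarith
  have hCL : C₁ / L ≤ 1 / 2 := by rw [div_le_iff₀ hL0]; linarith
  have hright : ∀ v : ℝ, ‖zetaMoll T (((2 : ℝ) : ℂ) + v * I) - 1‖ ≤ C₁ / L := fun v =>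
    hone _ (by simp; norm_num) (by simp; norm_num)
  have hrpos : ∀ v : ℝ, 0 < (zetaMoll T (((2 : ℝ) : ℂ) + v * I)).re := fun v => by
    have h := (abs_le.1 ((abs_re_le_norm _).trans ((hright v).trans hCL))).1
    rw [sub_re, one_re] at h
    linarith
  have hmemK : ∀ s : ℂ, s.re ∈ Icc σ 2 → s.im ∈ Icc y₁ y₂ → s ∈ K₀ := fun s h1 h2 => by
    rw [hK₀, mem_reProdIm]
    exact ⟨⟨by linarith [h1.1], h1.2⟩, by linarith [h2.1], by linarith [h2.2]⟩
  have hne : ∀ s : ℂ, s.re ∈ Icc σ 2 → s.im ∈ Icc y₁ y₂ →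
      (s.re = σ ∨ s.re = 2 ∨ s.im = y₁ ∨ s.im = y₂) → zetaMoll T s ≠ 0 := fun s h1 h2 h3 h0 => by
    rcases h3 with e | e | e | e
    · exact hσS ⟨s, ⟨hmemK s h1 h2, h0⟩, e⟩
    · have h := hrpos s.im
      rw [← e, Complex.re_add_im, h0, zero_re] at h
      exact lt_irrefl _ h
    · exact hy1S ⟨s, ⟨hmemK s h1 h2, h0⟩, e⟩
    · exact hy2S ⟨s, ⟨hmemK s h1 h2, h0⟩, e⟩
  obtain ⟨Z, hZ, hord, hid⟩ := littlewood_rect isOpen_upperPlane
    convex_upperPlane.isPreconnected (differentiableOn_zetaMoll T)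
    (show σ < 2 by linarith [hline.2]) hy (fun s h1 h2 => hK₀s (hmemK s h1 h2)) hne
  have hσ1 : σ ≤ 1 / 2 := by linarith [hline.2]
  have hA : (∫ v in y₁..y₂, Real.log ‖zetaMoll T ((σ : ℂ) + v * I)‖) ≤ (Q + 1) * T / 2 := by
    refine (integral_log_le_sq (show 0 < T by linarith) hy1.le hy.le hy2.le fun t ht => hne _
      (by simp; linarith) (by simpa using ht)
      (Or.inl (by simp))).trans (div_le_div_of_nonneg_right ?_ two_pos.le)
    linarith
  have hB : |∫ v in y₁..y₂, Real.log ‖zetaMoll T (((2 : ℝ) : ℂ) + v * I)‖| ≤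
      2 * C₁ * T := by
    refine ((Real.norm_eq_abs _).symm.trans_le (intervalIntegral.norm_integral_le_of_norm_le_const
      (C := 2 * C₁ / L) fun v _ => ?_)).trans ?_
    · have h := hright v
      have a1 := norm_sub_norm_le (1 : ℂ) (zetaMoll T (((2 : ℝ) : ℂ) + v * I))
      have a2 := norm_le_norm_add_norm_sub' (zetaMoll T (((2 : ℝ) : ℂ) + v * I)) (1 : ℂ)
      rw [norm_one, norm_sub_rev] at a1
      rw [norm_one] at a2
      obtain ⟨x, hx⟩ : ∃ x, x = ‖zetaMoll T (((2 : ℝ) : ℂ) + v * I)‖ := ⟨_, rfl⟩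
      rw [← hx] at a1 a2 ⊢
      have hx0 : 0 < x := by linarith
      have h3 : x⁻¹ ≤ 1 + 2 * C₁ / L := by
        rw [mul_div_assoc, inv_eq_one_div, div_le_iff₀ hx0]
        nlinarith [div_nonneg hC₁ hL0.le, mul_nonneg (div_nonneg hC₁ hL0.le)
          (show 0 ≤ x - (1 - C₁ / L) by linarith)]
      rw [Real.norm_eq_abs, abs_le, mul_div_assoc]
      rw [mul_div_assoc] at h3
      have := div_nonneg hC₁ hL0.le
      constructor <;> linarith [Real.one_sub_inv_le_log_of_pos hx0,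
        Real.log_le_sub_one_of_pos hx0]
    · rw [abs_of_pos (by linarith)]
      exact mul_le_mul (div_le_self (by positivity) (by linarith)) (by linarith) (by linarith)
        (by positivity)
  have hR2 := abs_arg_edge_le isOpen_upperPlane (differentiableOn_zetaMoll T) (σ := 2) (a := y₁)
    (b := y₂) fun v hv => ⟨by
      rw [uIcc_of_le hy.le] at hv
      rw [upperPlane, Set.mem_ofPred_eq]
      simp
      linarith [hv.1], hrpos v⟩
  have hh : ∀ y ∈ Icc T (2 * T), (y = y₁ ∨ y = y₂) →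
      |∫ u in σ..2, (u - σ) * (deriv (zetaMoll T) ((u : ℂ) + y * I) /
        zetaMoll T ((u : ℂ) + y * I)).im| ≤ K * L := fun y hy' hor =>
    hhor y hy' σ ⟨hσa.le, hσ1⟩ fun u hu => hne _ (by simpa using hu)
      (by rcases hor with rfl | rfl <;> simp [hy.le]) (by rcases hor with rfl | rfl <;> simp)
  have h1 := (abs_le.1 (hh y₁ ⟨hy1.le, by linarith⟩ (Or.inl rfl))).2
  have h2 := (abs_le.1 (hh y₂ ⟨by linarith, hy2.le⟩ (Or.inr rfl))).1
  have h3 : (2 - σ) * (∫ v in y₁..y₂, (deriv (zetaMoll T) (((2 : ℝ) : ℂ) + v * I) /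
      zetaMoll T (((2 : ℝ) : ℂ) + v * I)).re) ≤ 2 * (2 * π) :=
    (mul_le_mul_of_nonneg_left (abs_le.1 hR2).2 (by linarith)).trans
      (mul_le_mul_of_nonneg_right (by linarith) (by positivity))
  have hsum : ∑ ρ ∈ F, (zetaMult ρ : ℝ) * (ρ.re - 1 / 2) ≤ (Z.map fun ρ => ρ.re - σ).sum := by
    rw [Finset.sum_multiset_map_count]
    have hnn : ∀ ρ, 0 ≤ Z.count ρ • (ρ.re - σ) := fun ρ => by
      rcases Nat.eq_zero_or_pos (Z.count ρ) with h | h
      · simp [h]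
      · exact nsmul_nonneg (by linarith [(hZ ρ (Multiset.count_pos.1 h)).1.1]) _
    refine (Finset.sum_le_sum fun ρ hρ => ?_).trans ((Finset.sum_le_sum_of_subset_of_nonneg
      (Finset.subset_union_left (s₂ := Z.toFinset)) fun ρ _ _ => hnn ρ).trans
        (le_of_eq (Finset.sum_subset (Finset.subset_union_right (s₁ := F)) fun ρ _ h => ?_).symm))
    · obtain ⟨-, a, b, c, d⟩ := hF ρ hρ
      have hd : ρ ∈ upperPlane := by rw [upperPlane, Set.mem_ofPred_eq]; linarith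
      rw [← hord ρ ⟨by linarith, by linarith⟩ ⟨c.le, d.le⟩, nsmul_eq_mul]
      exact mul_le_mul (Nat.cast_le.2 (analyticOrderNatAt_zeta_le hd (htop ρ hd))) (by linarith)
        (by linarith) (Nat.cast_nonneg _)
    · rw [Multiset.count_eq_zero.2 fun h' => h (Multiset.mem_toFinset.2 h'), zero_smul]
  have hKT := mul_le_mul_of_nonneg_left hLT hK
  obtain ⟨S, hS⟩ : ∃ S, S = (Z.map fun ρ => ρ.re - σ).sum := ⟨_, rfl⟩
  rw [← hS] at hid hsum
  generalize ∑ ρ ∈ F, (zetaMult ρ : ℝ) * (ρ.re - 1 / 2) = m at hsum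
  have hS' : 2 * π * S ≤ (Q + 2 * C₁ + 4 * π + 2 * K + 1) * T := by
    have hπT : 4 * π * 1 ≤ 4 * π * T := mul_le_mul_of_nonneg_left (by linarith) (by positivity)
    have hQT : 0 ≤ Q * T := mul_nonneg hQ (by linarith)
    linarith [(abs_le.1 hB).1]
  rcases le_or_gt 0 S with hs | hs
  · nlinarith [Real.pi_gt_three]
  · have : 0 ≤ (Q + 2 * C₁ + 4 * π + 2 * K + 1) * T := mul_nonneg (by positivity) (by linarith)
    linarith

/-- **One dyadic block.** -/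
theorem exists_excess_dyadic : ∃ C, 0 ≤ C ∧ ∀ᶠ T : ℝ in atTop,
    zeroExcess (2 * T) ≤ zeroExcess T + C * T := by
  classical
  obtain ⟨C, hC, hrect⟩ := exists_rect
  obtain ⟨D, hD, hshort⟩ := exists_short_count
  refine ⟨2 * (C + D), by positivity, ?_⟩
  filter_upwards [hrect, hshort, eventually_ge_atTop (2 : ℝ)] with T hrect hshort hT
  obtain ⟨y₁, y₂, ⟨hy1, hy1'⟩, ⟨hy2', hy2⟩, hmid⟩ := hrect
  obtain ⟨P, hP⟩ : ∃ P, P = (dyadicZeros T).filter fun ρ => 1 / 2 ≤ ρ.re := ⟨_, rfl⟩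
  obtain ⟨M, hM⟩ : ∃ M, M = P.filter fun ρ => y₁ < ρ.im ∧ ρ.im < y₂ := ⟨_, rfl⟩
  obtain ⟨W, hW⟩ : ∃ W, W = P.filter fun ρ => ¬(y₁ < ρ.im ∧ ρ.im < y₂) := ⟨_, rfl⟩
  have hPm : ∀ ρ ∈ P, (riemannZeta ρ = 0 ∧ 0 < ρ.re ∧ ρ.re < 1 ∧ 0 < ρ.im ∧ ρ.im ≤ 2 * T) ∧
      T < ρ.im ∧ 1 / 2 ≤ ρ.re := fun ρ hρ => by
    rw [hP, Finset.mem_filter, mem_dyadicZeros] at hρ
    exact ⟨hρ.1.1, hρ.1.2, hρ.2⟩
  have hm : ∑ ρ ∈ M, (zetaMult ρ : ℝ) * (ρ.re - 1 / 2) ≤ C * T := hmid M fun ρ hρ => by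
    rw [hM, Finset.mem_filter] at hρ
    obtain ⟨⟨a, -, c, -, -⟩, -, f⟩ := hPm ρ hρ.1
    exact ⟨a, f, c, hρ.2.1, hρ.2.2⟩
  have hw : ((∑ ρ ∈ W, zetaMult ρ : ℕ) : ℝ) ≤ 2 * (D * T) := by
    have hWP : ∀ ρ ∈ W, ρ ∈ P := fun ρ hρ => by rw [hW] at hρ; exact Finset.mem_of_mem_filter _ hρ
    have w1 := window_count_le (show 0 ≤ T by linarith) (W.filter fun ρ => ρ.im ≤ y₁)
      (fun ρ hρ => by
        rw [Finset.mem_filter] at hρ
        obtain ⟨⟨a, b, c, -, -⟩, e, -⟩ := hPm ρ (hWP ρ hρ.1)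
        exact ⟨a, b, c, e, by linarith [hρ.2]⟩)
      (hshort T ⟨le_rfl, by linarith⟩)
    have w2 := window_count_le (show 0 ≤ 2 * T - 1 by linarith) (W.filter fun ρ => ¬ρ.im ≤ y₁)
      (fun ρ hρ => by
        rw [Finset.mem_filter, not_le] at hρ
        obtain ⟨⟨a, b, c, -, d⟩, -, -⟩ := hPm ρ (hWP ρ hρ.1)
        have h' := hρ.1
        rw [hW, Finset.mem_filter] at h'
        exact ⟨a, b, c, by linarith [le_of_not_gt fun e => h'.2 ⟨hρ.2, e⟩], by linarith⟩)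
      (hshort (2 * T - 1) ⟨by linarith, by linarith⟩)
    rw [← Finset.sum_filter_add_sum_filter_not W (fun ρ => ρ.im ≤ y₁)]
    push_cast at w1 w2 ⊢
    linarith
  have hw' : ∑ ρ ∈ W, (zetaMult ρ : ℝ) * (ρ.re - 1 / 2) ≤ D * T := by
    refine (Finset.sum_le_sum (g := fun ρ => (zetaMult ρ : ℝ) * (1 / 2)) fun ρ hρ => ?_).trans ?_
    · rw [hW, Finset.mem_filter] at hρ
      exact mul_le_mul_of_nonneg_left (by linarith [(hPm ρ hρ.1).1.2.2.1]) (Nat.cast_nonneg _)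
    · rw [← Finset.sum_mul, ← Nat.cast_sum]
      linarith
  have hnew : ∑ ρ ∈ dyadicZeros T, (zetaMult ρ : ℝ) * max (ρ.re - 1 / 2) 0 ≤ (C + D) * T := by
    rw [← Finset.sum_filter_add_sum_filter_not (dyadicZeros T) (fun ρ => 1 / 2 ≤ ρ.re),
      Finset.sum_eq_zero (s := (dyadicZeros T).filter fun ρ => ¬1 / 2 ≤ ρ.re) fun ρ hρ => by
        rw [Finset.mem_filter, not_le] at hρ
        rw [max_eq_right (by linarith [hρ.2]), mul_zero],
      add_zero, ← hP,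
      Finset.sum_congr rfl (g := fun ρ => (zetaMult ρ : ℝ) * (ρ.re - 1 / 2)) fun ρ hρ => by
        rw [max_eq_left (by linarith [(hPm ρ hρ).2.2])],
      ← Finset.sum_filter_add_sum_filter_not P (fun ρ => y₁ < ρ.im ∧ ρ.im < y₂), ← hM, ← hW]
    linarith
  have hsplit : zeroExcess (2 * T) ≤
      zeroExcess T + ∑ ρ ∈ dyadicZeros T, (zetaMult ρ : ℝ) * |ρ.re - 1 / 2| := by
    rw [zeroExcess, ← Finset.sum_filter_add_sum_filter_not _ (fun ρ : ℂ => T < ρ.im), add_comm]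
    refine add_le_add (Finset.sum_le_sum_of_subset_of_nonneg (fun ρ hρ => ?_)
      fun ρ _ _ => by positivity) le_rfl
    rw [Finset.mem_filter, Set.Finite.mem_toFinset, not_lt] at hρ
    rw [Set.Finite.mem_toFinset]
    exact ⟨hρ.1.1, hρ.1.2.1, hρ.1.2.2.1, hρ.1.2.2.2.1, hρ.2⟩
  rw [sum_abs_dyadic] at hsplit
  linarith

theorem zeroExcess_mono {S T : ℝ} (h : S ≤ T) : zeroExcess S ≤ zeroExcess T :=
  Finset.sum_le_sum_of_subset_of_nonneg (fun ρ hρ => by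
    rw [Set.Finite.mem_toFinset] at hρ ⊢
    exact ⟨hρ.1, hρ.2.1, hρ.2.2.1, hρ.2.2.2.1, hρ.2.2.2.2.trans h⟩) fun ρ _ _ => by positivity

/-- **Selberg's theorem.** -/
theorem exists_zeroExcess_le : ∃ C, 0 ≤ C ∧ ∀ T : ℝ, 1 ≤ T → zeroExcess T ≤ C * T := by
  obtain ⟨C, hC, hdy⟩ := exists_excess_dyadic
  obtain ⟨T₀, hT₀⟩ := eventually_atTop.1 (hdy.and (eventually_ge_atTop (1 : ℝ)))
  obtain ⟨D, hD⟩ : ∃ D : ℝ, D = max C (zeroExcess (2 * T₀)) := ⟨_, rfl⟩
  have hD0 : 0 ≤ D := hD ▸ hC.trans (le_max_left _ _)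
  suffices h : ∀ (n : ℕ) (X : ℝ), 1 ≤ X → X < 2 ^ n → zeroExcess X ≤ D * X by
    refine ⟨D, hD0, fun X hX => ?_⟩
    obtain ⟨n, hn⟩ := pow_unbounded_of_one_lt X (one_lt_two (α := ℝ))
    exact h n X hX hn
  intro n
  induction n with
  | zero => intro X h1 h2; rw [pow_zero] at h2; linarith
  | succ n ih =>
    intro X h1 h2
    rcases lt_or_ge X (2 * T₀) with hs | hs
    · exact ((zeroExcess_mono hs.le).trans (hD ▸ le_max_right _ _)).trans
        (le_mul_of_one_le_right hD0 h1)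
    · obtain ⟨h3, h4⟩ := hT₀ (X / 2) (by linarith)
      rw [show 2 * (X / 2) = X by ring] at h3
      have h5 := ih (X / 2) h4 (by rw [pow_succ] at h2; linarith)
      have h6 : C * X ≤ D * X := mul_le_mul_of_nonneg_right (hD ▸ le_max_left _ _) (by linarith)
      linarith

theorem mul_offLineCount_le (δ T : ℝ) : δ * offLineCount δ T ≤ zeroExcess T := by
  rw [offLineCount, Nat.cast_sum, Finset.mul_sum]
  refine (Finset.sum_le_sum fun ρ hρ => ?_).trans (Finset.sum_le_sum_of_subset_of_nonneg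
    (Finset.filter_subset _ _) fun ρ _ _ => by positivity)
  rw [mul_comm]
  exact mul_le_mul_of_nonneg_left (Finset.mem_filter.1 hρ).2 (Nat.cast_nonneg _)

theorem rightCount_le_offLineCount (σ T : ℝ) :
    rightCount σ T ≤ offLineCount (σ - 1 / 2) T :=
  Finset.sum_le_sum_of_subset fun ρ hρ => by
    rw [Finset.mem_filter] at hρ ⊢
    exact ⟨hρ.1, (sub_le_sub_right hρ.2 _).trans (le_abs_self _)⟩

end FA.SelbergDensity

end
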