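import Fermat.Agent.LevinsonThird.Edges

/-!
# `ζ ψ` left of the line and on the right

The circle average of R1089 without weight gives `∫_T^2T |ζ ψ|² = O (T)` on
`re s = 1/2 - R / log T`; right of `re s = 3/2` the product is `1 + O (1 / log T)`.
-/

set_option autoImplicit false

noncomputable section

namespace FA.SelbergDensity

open Complex Filter MeasureTheory Set Metric
open FA.LevinsonThird
open scoped Real Interval Topology LSeries.notation ArithmeticFunction.Moebius

/-- `ζ` times the mollifier. -/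
def zetaMoll (T : ℝ) (s : ℂ) : ℂ := riemannZeta s * levMoll T s

/-- The upper half plane. -/
def upperPlane : Set ℂ := {s : ℂ | 0 < s.im}

theorem isOpen_upperPlane : IsOpen upperPlane := isOpen_lt continuous_const continuous_im

theorem convex_upperPlane : Convex ℝ upperPlane := convex_halfSpace_im_gt _

theorem differentiableOn_zetaMoll (T : ℝ) : DifferentiableOn ℂ (zetaMoll T) upperPlane :=
  fun s hs => ((differentiableAt_riemannZeta fun h => by
    rw [upperPlane, Set.mem_ofPred_eq, h, one_im] at hs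
    exact lt_irrefl _ hs).mul (differentiable_levMoll T s)).differentiableWithinAt

theorem levAvg_zeta {T t : ℝ} (hT : 64 ≤ T) (hL : 3 ≤ Real.log T) (ht : T ≤ t) :
    levAvg 1 0 (Real.log T) t = 2 * π * riemannZeta ((levLine T : ℂ) + t * I) := by
  obtain ⟨h1, h2⟩ := levAvg_eq hT hL ht
  have hz : Continuous fun θ : ℝ => zetaCircle (Real.log T) θ t :=
    (continuous_zetaCircle hL).comp (Continuous.prodMk continuous_id continuous_const)
  have hadd : levAvg 1 0 (Real.log T) t + levAvg 0 1 (Real.log T) t =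
      levAvg 1 1 (Real.log T) t := by
    simp only [levAvg]
    rw [← intervalIntegral.integral_add
      ((by fun_prop : Continuous fun θ : ℝ =>
        (1 + 0 * cexp (-(θ * I))) * zetaCircle (Real.log T) θ t).intervalIntegrable _ _)
      ((by fun_prop : Continuous fun θ : ℝ =>
        (0 + 1 * cexp (-(θ * I))) * zetaCircle (Real.log T) θ t).intervalIntegrable _ _)]
    exact intervalIntegral.integral_congr fun θ _ => by ring
  rw [h1, h2] at hadd
  linear_combination hadd

/-- **The mollified mean square of `ζ`.** -/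
theorem exists_zetaMoll_meanSquare : ∃ C, 0 ≤ C ∧ ∀ᶠ T : ℝ in atTop,
    (∫ t in T..2 * T, ‖zetaMoll T ((levLine T : ℂ) + t * I)‖ ^ 2) ≤ C * T := by
  obtain ⟨C, hC⟩ : ∃ C, C = (|(limitAvg 1 0).re| + 1) / (4 * π ^ 2) := ⟨_, rfl⟩
  refine ⟨C, by rw [hC]; positivity, ?_⟩
  filter_upwards [levAvg_meanSquare 1 0 one_pos, eventually_ge_atTop (64 : ℝ),
    Real.tendsto_log_atTop.eventually_ge_atTop 3] with T h hT hL
  rw [intervalIntegral.integral_congr (g := fun t => 4 * π ^ 2 *
      ‖zetaMoll T ((levLine T : ℂ) + t * I)‖ ^ 2) fun t ht => ?_,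
    intervalIntegral.integral_const_mul] at h
  · rw [hC, div_mul_eq_mul_div, le_div_iff₀ (by positivity)]
    have h2 := mul_le_mul_of_nonneg_right
      (show (limitAvg 1 0).re + 1 ≤ |(limitAvg 1 0).re| + 1 by
        linarith [le_abs_self (limitAvg 1 0).re])
      (show 0 ≤ T by linarith)
    linarith
  · rw [uIcc_of_le (by linarith)] at ht
    simp only []
    rw [levAvg_zeta hT hL ht.1, zetaMoll, levMoll_line, norm_mul, norm_mul, norm_mul,
      Complex.norm_two, Complex.norm_real, Real.norm_of_nonneg Real.pi_pos.le]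
    ring

/-- **Right of `re s = 3/2`.** -/
theorem eventually_zetaMoll_near_one : ∃ C, 0 ≤ C ∧ ∀ᶠ T : ℝ in atTop, ∀ s : ℂ,
    3 / 2 ≤ s.re → s.re ≤ 3 → ‖zetaMoll T s - 1‖ ≤ C / Real.log T := by
  obtain ⟨S, hS⟩ : ∃ S, S = ∑' n : ℕ, Real.log n * (n : ℝ) ^ (-(3 / 2) : ℝ) := ⟨_, rfl⟩
  have hS0 : 0 ≤ S := hS ▸ tsum_nonneg fun n =>
    mul_nonneg (Real.log_natCast_nonneg n) (by positivity)
  refine ⟨16 * (4 * S), by positivity, ?_⟩
  filter_upwards [eventually_gt_atTop (1 : ℝ)] with T hT s h1 h2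
  have hinv : riemannZeta s * L ↗μ s = 1 := by
    rw [← ArithmeticFunction.LSeries_zeta_eq_riemannZeta (by linarith)]
    exact ArithmeticFunction.LSeries_zeta_mul_Lseries_moebius (by linarith)
  rw [show zetaMoll T s - 1 = riemannZeta s * (levMoll T s - L ↗μ s) by
    rw [zetaMoll, ← hinv]; ring, norm_mul]
  refine (mul_le_mul (FA.Levinson.norm_zeta_le_sixteen (by linarith)) (levMoll_sub_inv hT h1)
    (norm_nonneg _) (by norm_num)).trans (le_of_eq ?_)
  rw [← hS]
  ring

theorem eventually_zetaMoll_half : ∀ᶠ T : ℝ in atTop, ∀ s : ℂ,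
    3 / 2 ≤ s.re → s.re ≤ 3 → ‖zetaMoll T s - 1‖ ≤ 1 / 2 := by
  obtain ⟨C, hC, h⟩ := eventually_zetaMoll_near_one
  filter_upwards [h, Real.tendsto_log_atTop.eventually_ge_atTop (2 * C + 1)] with T hT hL s h1 h2
  refine (hT s h1 h2).trans ?_
  rw [div_le_iff₀ (by linarith)]
  linarith

theorem eventually_order_zetaMoll : ∀ᶠ T : ℝ in atTop, ∀ s ∈ upperPlane,
    analyticOrderAt (zetaMoll T) s ≠ ⊤ := by
  filter_upwards [eventually_zetaMoll_half] with T hT s hs h
  have h0 := ((differentiableOn_zetaMoll T).analyticOnNhd isOpen_upperPlane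
    ).eqOn_zero_of_preconnected_of_eventuallyEq_zero convex_upperPlane.isPreconnected hs
      (analyticOrderAt_eq_top.1 h)
  have := hT (2 + I) (by simp; norm_num) (by simp; norm_num)
  rw [h0 (show (2 + I : ℂ) ∈ upperPlane by simp [upperPlane])] at this
  norm_num at this

theorem analyticOrderNatAt_zeta_le {T : ℝ} {s : ℂ} (hs : s ∈ upperPlane)
    (h : analyticOrderAt (zetaMoll T) s ≠ ⊤) :
    analyticOrderNatAt riemannZeta s ≤ analyticOrderNatAt (zetaMoll T) s := by
  have ha := FA.Levinson.analyticAt_zeta (s := s) fun e => by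
    rw [upperPlane, Set.mem_ofPred_eq, e, one_im] at hs
    exact lt_irrefl _ hs
  have hb := (differentiable_levMoll T).analyticAt s
  rw [show zetaMoll T = riemannZeta * levMoll T from rfl, analyticOrderAt_mul ha hb] at h
  obtain ⟨h1, h2⟩ := WithTop.add_ne_top.1 h
  rw [show zetaMoll T = riemannZeta * levMoll T from rfl, analyticOrderNatAt_mul ha hb h1 h2]
  exact Nat.le_add_right _ _

/-- **The horizontal edges.** -/
theorem exists_zetaMoll_horizontal : ∃ K, 0 ≤ K ∧ ∀ᶠ T : ℝ in atTop, ∀ c ∈ Icc T (2 * T),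
    ∀ σ ∈ Icc (9 / 20 : ℝ) (1 / 2), (∀ u ∈ Icc σ 2, zetaMoll T ((u : ℂ) + c * I) ≠ 0) →
      |∫ u in σ..2, (u - σ) * (deriv (zetaMoll T) ((u : ℂ) + c * I) /
        zetaMoll T ((u : ℂ) + c * I)).im| ≤ K * Real.log T := by
  obtain ⟨K, hK, hexp⟩ := FA.RiemannMangoldt.exists_logDeriv_expansion (r₁ := 23 / 20)
    (r := 6 / 5) (r₂ := 21 / 20) (by norm_num) (by norm_num) (by norm_num)
  refine ⟨(2 * π + 4) * (4 * K), by positivity, ?_⟩
  filter_upwards [eventually_zetaMoll_half, eventually_ge_atTop (80 : ℝ),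
    Real.tendsto_log_atTop.eventually_ge_atTop 1] with T hhalf hT hL c hc σ hσ hne
  obtain ⟨G, hG⟩ : ∃ G, G = zetaMoll T := ⟨_, rfl⟩
  rw [← hG] at hhalf hne ⊢
  obtain ⟨s₀, hs₀⟩ : ∃ s₀ : ℂ, s₀ = ((3 / 2 : ℝ) : ℂ) + c * I := ⟨_, rfl⟩
  have hre : s₀.re = 3 / 2 := by simp [hs₀]
  have him : s₀.im = c := by simp [hs₀]
  obtain ⟨f, hf⟩ : ∃ f : ℂ → ℂ, f = fun z => G (s₀ + z) := ⟨_, rfl⟩
  have hd : DifferentiableOn ℂ f (ball 0 (5 / 4)) := fun z hz => by
    rw [mem_ball_zero_iff] at hz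
    have b := abs_le.1 ((abs_im_le_norm z).trans hz.le)
    rw [hf]
    exact (((hG ▸ differentiableOn_zetaMoll T).differentiableAt
      (isOpen_upperPlane.mem_nhds (show s₀ + z ∈ upperPlane by
        rw [upperPlane, Set.mem_ofPred_eq, add_im, him]; linarith [hc.1]))).comp z
        (differentiableAt_id.const_add s₀)).differentiableWithinAt
  have hlow : 1 / 2 ≤ ‖f 0‖ := by
    have h := hhalf s₀ (by rw [hre]) (by rw [hre]; norm_num)
    have h' := norm_sub_norm_le (1 : ℂ) (G s₀)
    rw [norm_one, norm_sub_rev] at h'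
    simp only [hf, add_zero]
    linarith
  obtain ⟨B, hB⟩ : ∃ B, B = 10 * (2 * T + 5) * T := ⟨_, rfl⟩
  have hB1 : 1 ≤ B := by rw [hB]; nlinarith
  have hsph : ∀ z ∈ sphere (0 : ℂ) (6 / 5), ‖f z‖ ≤ B * ‖f 0‖ := fun z hz => by
    rw [mem_sphere_zero_iff_norm] at hz
    have a := abs_le.1 ((abs_re_le_norm z).trans hz.le)
    have b := abs_le.1 ((abs_im_le_norm z).trans hz.le)
    have hab : |(s₀ + z).im| = c + z.im := by
      rw [add_im, him, abs_of_nonneg (by linarith [hc.1])]
    have h1 := FA.DLVP.norm_zeta_crude (s := s₀ + z) (by rw [add_re, hre]; linarith)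
      (by rw [add_re, hre]; linarith) (by rw [hab]; linarith [hc.1])
    have h2 := norm_levMoll_le (T := T) (s := s₀ + z) (by linarith)
      (by rw [add_re, hre]; linarith)
    rw [hab] at h1
    calc ‖f z‖ ≤ 5 * (2 * T + 5) * T := by
          rw [hf, hG]
          simp only [zetaMoll, norm_mul]
          exact mul_le_mul (h1.trans (by linarith [hc.2])) h2 (norm_nonneg _) (by linarith)
      _ = B * (1 / 2) := by rw [hB]; ring
      _ ≤ B * ‖f 0‖ := mul_le_mul_of_nonneg_left hlow (by linarith)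
  obtain ⟨Z, hZ, hcard, hord, hlog⟩ := hexp (ball 0 (5 / 4)) f B isOpen_ball
    (closedBall_subset_ball (by norm_num)) hd
    (norm_pos_iff.1 (lt_of_lt_of_le (by norm_num) hlow)) hB1 hsph
  have hKB : K * (Real.log B + 1) ≤ 4 * K * Real.log T := by
    have hBT : Real.log B ≤ 3 * Real.log T := by
      rw [show (3 : ℝ) * Real.log T = Real.log (T ^ 3) by rw [Real.log_pow]; norm_num]
      refine Real.log_le_log (by linarith) ?_
      rw [hB, pow_succ]
      exact mul_le_mul_of_nonneg_right (by nlinarith) (by linarith)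
    exact (mul_le_mul_of_nonneg_left (show Real.log B + 1 ≤ 4 * Real.log T by linarith) hK).trans
      (le_of_eq (by ring))
  obtain ⟨Z', hZ'⟩ : ∃ Z', Z' = Z.map fun ρ => ρ + s₀ := ⟨_, rfl⟩
  have hroot : ∀ ρ ∈ Z', ∀ u ∈ Icc σ 2, (u : ℂ) + c * I ≠ ρ := by
    intro ρ hρ u hu h
    rw [hZ'] at hρ
    obtain ⟨x, hx, rfl⟩ := Multiset.mem_map.1 hρ
    have hx' : 0 < Z.count x := Multiset.count_pos.2 hx
    rw [← hord x (hZ x hx)] at hx'
    have hz : f x = 0 := apply_eq_zero_of_analyticOrderNatAt_ne_zero hx'.ne'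
    refine hne u hu ?_
    rw [h, add_comm]
    simpa [hf] using hz
  have hσ2 : σ ≤ 2 := by linarith [hσ.2]
  obtain ⟨hRi, hRb⟩ := weighted_roots_le (by linarith [hσ.1]) hσ2 Z' hroot
  have hrem : ∀ u ∈ Icc σ 2, |(deriv G ((u : ℂ) + c * I) / G ((u : ℂ) + c * I)).im -
      ((Z'.map fun ρ => ((u : ℂ) + c * I - ρ)⁻¹).sum).im| ≤ 4 * K * Real.log T := fun u hu => by
    have hseg : ‖((u : ℂ) + c * I) - s₀‖ ≤ 21 / 20 := by
      rw [hs₀, show (u : ℂ) + c * I - (((3 / 2 : ℝ) : ℂ) + c * I) = ((u - 3 / 2 : ℝ) : ℂ) by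
        push_cast; ring, Complex.norm_real, Real.norm_eq_abs, abs_le]
      constructor <;> linarith [hu.1, hu.2, hσ.1]
    have h1 := hlog ((u : ℂ) + c * I - s₀) (mem_closedBall_zero_iff.2 hseg)
      (by simpa [hf] using hne u hu)
    simp only [hf, deriv_comp_const_add, add_sub_cancel] at h1
    rw [← sub_im]
    refine (abs_im_le_norm _).trans (le_trans (le_of_eq ?_) (h1.trans hKB))
    rw [hZ', Multiset.map_map]
    congr 3
    refine Multiset.map_congr rfl fun ρ _ => ?_
    simp only [Function.comp_apply]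
    congr 1
    ring
  have hGc : ContinuousOn (fun u : ℝ => (u - σ) *
      (deriv G ((u : ℂ) + c * I) / G ((u : ℂ) + c * I)).im) (uIcc σ 2) := fun u hu => by
    rw [uIcc_of_le hσ2] at hu
    have hm : (u : ℂ) + c * I ∈ upperPlane := by
      rw [upperPlane, Set.mem_ofPred_eq]; simp; linarith [hc.1]
    exact ((continuousAt_id.sub continuousAt_const).mul (Complex.continuous_im.continuousAt.comp'
      ((continuousAt_logDeriv isOpen_upperPlane (hG ▸ differentiableOn_zetaMoll T) hm
        (hne u hu)).comp' (f := fun v : ℝ => (v : ℂ) + c * I) (by fun_prop)))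
      ).continuousWithinAt
  have hdiff : |(∫ u in σ..2, ((u - σ) *
      (deriv G ((u : ℂ) + c * I) / G ((u : ℂ) + c * I)).im -
      (u - σ) * ((Z'.map fun ρ => ((u : ℂ) + c * I - ρ)⁻¹).sum).im))| ≤
      4 * (4 * K * Real.log T) := by
    have h := intervalIntegral.norm_integral_le_of_norm_le_const (a := σ) (b := 2)
      (C := 2 * (4 * K * Real.log T)) (f := fun u : ℝ => (u - σ) *
        (deriv G ((u : ℂ) + c * I) / G ((u : ℂ) + c * I)).im -
        (u - σ) * ((Z'.map fun ρ => ((u : ℂ) + c * I - ρ)⁻¹).sum).im) fun u hu => by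
      rw [uIoc_of_le hσ2] at hu
      rw [← mul_sub, Real.norm_eq_abs, abs_mul]
      exact mul_le_mul (by rw [abs_of_nonneg (by linarith [hu.1])]; linarith [hu.2, hσ.1])
        (hrem u ⟨hu.1.le, hu.2⟩) (abs_nonneg _) zero_le_two
    refine ((Real.norm_eq_abs _).symm.trans_le h).trans ?_
    rw [abs_of_nonneg (by linarith)]
    nlinarith [hσ.1, mul_nonneg hK (show 0 ≤ Real.log T by linarith)]
  rw [intervalIntegral.integral_sub hGc.intervalIntegrable hRi] at hdiff
  have h2 := mul_le_mul_of_nonneg_left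
    (show (Multiset.card Z' : ℝ) ≤ 4 * K * Real.log T by
      rw [hZ', Multiset.card_map]; exact hcard.trans hKB)
    (show 0 ≤ 2 * π by positivity)
  rw [abs_le] at hRb hdiff ⊢
  constructor <;> linarith

end FA.SelbergDensity

end
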